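import Fermat.Agent.S37.Red.H144.Monic

/-!
# S37-RED, piece RED-D (route N): the count `(EC) ⟹ (ii)` (helper144)

Main theorem (exact shapes of `Fermat/Agent/S37/Red/Spec.lean`, architect helper40):

```
theorem redOfEvalCompat
    (hC0 : ∀ G : Datum A π F Fk, ChartValueStatement G)
    (hA  : ∀ G : Datum A π F Fk, FibreSumStatement G)
    (hB  : ∀ G : Datum A π F Fk, DegEqStatement G)
    (hD1 : ∀ G : Datum A π F Fk, SepStatement G)
    (G : Datum A π F Fk) : RedOfEvalCompatStatement G
```

Proof.  Let `y` be a unit of `O`, `D = div y`, `Q₁` a place of `F_k`, say in the finite chart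
(otherwise pass to the swapped datum `x ↔ x⁻¹`).  Let `T` be the finite set of places `≠ Q₁`
of the finite chart that are zeros/poles of `ȳ` or reductions of zeros/poles of `y`.  RED-D1
gives a monic-like `t` with separating reduction, `t̄(Q₁) = 0`, `t̄ ≠ 0` on `T`; RED-B makes it
an auxiliary coordinate.  By (EC) and RED-C0 the places `P ∈ supp D` with `t(P) ≡ 0` are
exactly those with `r P = Q₁`, and `Q₁` is the only zero/pole of `ȳ` on the fibre `t̄ = 0`
(monic-like functions have poles at the poles of `x̄`).  RED-A for `(t, c = 0)` is the claim.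
-/

set_option autoImplicit false

noncomputable section

namespace Fermat.Agent.S37.Red.H144

open AlgebraicCurve IntermediateField Polynomial

universe u

variable {K k F Fk : Type u} [Field K] [Field k] [Field F] [Field Fk]
  [Algebra K F] [Algebra k Fk] {A : ValuationSubring K} {π : A →+* k}

/-- `mapDomain` evaluated at a point, as a sum over the fibre. -/
theorem mapDomain_apply_eq_sum {α β : Type*} [DecidableEq β] (r : α → β) (D : α →₀ ℤ) (b : β) :
    Finsupp.mapDomain r D b = ∑ a ∈ D.support.filter (fun a => r a = b), D a := by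
  classical
  rw [Finsupp.mapDomain, Finsupp.sum_apply, Finsupp.sum, Finset.sum_filter]
  refine Finset.sum_congr rfl fun a _ => ?_
  rw [Finsupp.single_apply]

variable [IsAlgClosed K] [CharZero K] [IsAlgClosed k]

omit [CharZero K] in
/-- The count at a place of the finite chart. -/
theorem count_fin (G : Datum A π F Fk) (hgood : G.Good)
    (hC0 : ChartValueStatement G) (hA : FibreSumStatement G) (hB : DegEqStatement G)
    (hD1 : SepStatement G) (r : Place K F → Place k Fk) (hEC : EvalCompat G r)
    (y : F) (hy : y ∈ G.O) (hρ : G.ρ ⟨y, hy⟩ ≠ 0) (D : Divisor K F)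
    (hD : ∀ P, D P = P.ord y) (Q₁ : Place k Fk) (hQ₁ : G.xk ∈ Q₁.toValuationSubring) :
    Finsupp.mapDomain r D Q₁ = Q₁.ord (G.ρ ⟨y, hy⟩) := by
  classical
  have hfink := hgood.finite_k
  -- finitely many zeros and poles of `ȳ`
  have hfinY : {Q : Place k Fk | Q.ord (G.ρ ⟨y, hy⟩) ≠ 0}.Finite :=
    Lib.RR.H560.finite_ord_ne_zero G.xk G.xk_transc (G.ρ ⟨y, hy⟩)
  set T₀ : Finset (Place k Fk) := hfinY.toFinset ∪ D.support.image r with hT₀
  set T : Finset (Place k Fk) :=
    (T₀.erase Q₁).filter (fun Q => G.xk ∈ Q.toValuationSubring) with hT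
  have hTfin : ∀ Q ∈ T, G.xk ∈ Q.toValuationSubring := fun Q hQ =>
    (Finset.mem_filter.mp hQ).2
  have hQ₁T : Q₁ ∉ T := fun h =>
    (Finset.notMem_erase Q₁ T₀) (Finset.mem_filter.mp h).1
  obtain ⟨t, M, hM, hml, hsep, hQ₁t, hTt⟩ := hD1 hgood Q₁ T hQ₁ hTfin hQ₁T
  obtain ⟨haux, -, hchartx⟩ := hB hgood t M hM hml hsep
  have htO : t ∈ G.O := haux.mem
  have hred : G.red t = G.ρ ⟨t, htO⟩ := red_eq G htO
  have hπ0 : π 0 = 0 := map_zero π
  -- the places of `supp D` in the residue disc `t ≡ 0`
  set S : Finset (Place K F) :=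
    D.support.filter (fun P => ∃ a : A, π a = π 0 ∧ ValAt P t a) with hS
  have key := hA t haux y hy hρ 0 S {Q₁}
    (fun P hP hex => Finset.mem_filter.mpr
      ⟨Finsupp.mem_support_iff.mpr (by rw [hD P]; exact hP), hex⟩)
    (fun P hP => (Finset.mem_filter.mp hP).2)
    (by
      intro Q hQord hQval
      rw [Finset.mem_singleton]
      by_contra hne
      -- `Q` lies in the finite chart, since `t̄` is regular at `Q`
      have htQ : G.red t ∈ Q.toValuationSubring := valAt_mem hQval
      have hxQ : G.xk ∈ Q.toValuationSubring := by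
        by_contra hx
        rw [hred] at htQ
        exact rho_not_mem_of_monicLike G hM hml htO Q hx htQ
      have hQT : Q ∈ T := by
        rw [hT, Finset.mem_filter]
        refine ⟨Finset.mem_erase.mpr ⟨hne, ?_⟩, hxQ⟩
        rw [hT₀, Finset.mem_union]
        exact Or.inl (hfinY.mem_toFinset.mpr hQord)
      apply hTt Q hQT
      have h0 : ((0 : A) : K) = 0 := rfl
      rw [hπ0] at hQval
      exact hQval)
    (by
      intro Q hQ
      rw [Finset.mem_singleton] at hQ
      rw [hQ, hπ0]
      exact hQ₁t)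
  rw [Finset.sum_singleton] at key
  rw [key, mapDomain_apply_eq_sum]
  -- the two index sets agree
  have hsets : D.support.filter (fun P => r P = Q₁) = S := by
    rw [hS]
    refine Finset.filter_congr fun P _ => ?_
    constructor
    · intro hrP
      rcases chart_dichotomy G hgood P with ⟨a₀, h₀⟩ | ⟨a₀, ha₀, h₀⟩
      · obtain ⟨a, ha⟩ := hC0 G.x P a₀ h₀ t hml.1
        have h1 := hEC.1 P a₀ h₀ t hml.1 htO a ha
        rw [hrP] at h1
        rw [hred] at hQ₁t
        have h2 : π a = 0 := valAt_unique h1 hQ₁t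
        exact ⟨a, by rw [h2, hπ0], ha⟩
      · exfalso
        have h1 := hEC.2 P a₀ h₀ G.x⁻¹ (self_mem_chart G _) (x_inv_mem G) a₀ h₀
        rw [hrP, rho_x_inv, ha₀, valAt_zero_iff] at h1
        exact not_mem_of_valuation_inv_lt (xk_ne_zero G) h1 hQ₁
    · rintro ⟨a, hπa, hta⟩
      obtain ⟨a₀, h₀⟩ := hchartx P a hta
      have h1 := hEC.1 P a₀ h₀ t hml.1 htO a hta
      rw [hπa, hπ0] at h1
      have h2 := hEC.1 P a₀ h₀ G.x (self_mem_chart G _) G.x_mem a₀ h₀
      have hxrP : G.xk ∈ (r P).toValuationSubring := valAt_mem h2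
      by_contra hne
      have hPsupp : P ∈ D.support := by assumption
      have hrPT : r P ∈ T := by
        rw [hT, Finset.mem_filter]
        refine ⟨Finset.mem_erase.mpr ⟨hne, ?_⟩, hxrP⟩
        rw [hT₀, Finset.mem_union]
        exact Or.inr (Finset.mem_image_of_mem r hPsupp)
      apply hTt (r P) hrPT
      rw [hred]
      exact h1
  rw [hsets]
  exact Finset.sum_congr rfl fun P _ => hD P

/-- **RED-D (the count), route N**: evaluation compatibility implies property (ii), given
RED-C0, RED-A, RED-B and RED-D1 (for the datum and its swap `x ↔ x⁻¹`). -/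
theorem redOfEvalCompat
    (hC0 : ∀ G : Datum A π F Fk, ChartValueStatement G)
    (hA : ∀ G : Datum A π F Fk, FibreSumStatement G)
    (hB : ∀ G : Datum A π F Fk, DegEqStatement G)
    (hD1 : ∀ G : Datum A π F Fk, SepStatement G)
    (G : Datum A π F Fk) : RedOfEvalCompatStatement G := by
  intro hgood r hdeg hEC
  refine ⟨hdeg, fun y hy hρ D hD Q => ?_⟩
  by_cases hQ : G.xk ∈ Q.toValuationSubring
  · exact count_fin G hgood (hC0 G) (hA G) (hB G) (hD1 G) r hEC y hy hρ D hD Q hQ
  · have hQ' : (swap G).xk ∈ Q.toValuationSubring := by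
      rw [swap_xk]
      exact (Q.toValuationSubring.valuation_le_one_iff _).mp
        (valuation_inv_lt_of_not_mem hQ).le
    exact count_fin (swap G) (swap_good G hgood) (hC0 _) (hA _) (hB _) (hD1 _) r
      (swap_evalCompat G r hEC) y hy hρ D hD Q hQ'

end Fermat.Agent.S37.Red.H144
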